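import Mathlib

/-!
# The extension theorem of MacWilliams

Two finite families of functionals on a finite vector space which vanish equally often at every
point meet every line of the dual equally often, by counting on the kernel of a functional; so they
differ by a permutation and nonzero scalars.
-/

set_option autoImplicit false

noncomputable section

namespace FA.CodeExtension

open Finset Submodule

variable {F V ι : Type*} [Field F] [Fintype F] [AddCommGroup V] [Module F V] [Fintype V]
  [Fintype ι]

open Classical in
/-- The size of the common kernel of a nonzero functional and another. -/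
theorem card_common_kernel {φ : V →ₗ[F] F} (hφ : φ ≠ 0) (ψ : V →ₗ[F] F) :
    Fintype.card F ^ 2 * #{x | φ x = 0 ∧ ψ x = 0} =
      Fintype.card V * if ψ ∈ span F {φ} then Fintype.card F else 1 := by
  have key : ∀ {W : Type _} [AddCommGroup W] [Module F W] [Fintype W] (g : V →ₗ[F] W),
      Function.Surjective g → Fintype.card W * #{x | g x = 0} = Fintype.card V := by
    intro W _ _ _ g hg
    have h1 : (LinearMap.ker g).toAddSubgroup.index = Fintype.card W := by
      rw [LinearMap.ker_toAddSubgroup, AddSubgroup.index_ker, ← Nat.card_eq_fintype_card]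
      exact Nat.card_congr ((Equiv.setCongr (Set.range_eq_univ.2 hg)).trans (Equiv.Set.univ W))
    have h2 : Nat.card (LinearMap.ker g).toAddSubgroup = #{x | g x = 0} := by
      rw [← Fintype.card_subtype, ← Nat.card_eq_fintype_card]
      exact Nat.card_congr (Equiv.subtypeEquivRight fun x => by simp)
    rw [← h1, ← h2, mul_comm, AddSubgroup.card_mul_index, Nat.card_eq_fintype_card]
  have hsurj : Function.Surjective φ := LinearMap.surjective hφ
  have h := key φ hsurj
  split_ifs with hψ
  · obtain ⟨c, rfl⟩ := mem_span_singleton.1 hψ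
    have he : (univ.filter fun x => φ x = 0 ∧ (c • φ) x = 0) = univ.filter fun x => φ x = 0 :=
      filter_congr fun x _ => ⟨And.left, fun h => ⟨h, by simp [h]⟩⟩
    rw [he, pow_two, mul_assoc, h, mul_comm]
  · have hp : Function.Surjective (φ.prod ψ) := by
      obtain ⟨x, hx, hx'⟩ : ∃ x, φ x = 0 ∧ ψ x ≠ 0 := by
        by_contra hcon
        push Not at hcon
        obtain ⟨v, hv⟩ := hsurj 1
        refine hψ (mem_span_singleton.2 ⟨ψ v, LinearMap.ext fun y => ?_⟩)
        have := hcon (y - φ y • v) (by simp [hv])
        simp only [map_sub, map_smul, smul_eq_mul, sub_eq_zero] at this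
        rw [LinearMap.smul_apply, smul_eq_mul, this, mul_comm]
      obtain ⟨v, hv⟩ := hsurj 1
      rintro ⟨a, b⟩
      refine ⟨a • v + ((b - a * ψ v) / ψ x) • x, ?_⟩
      simp [hv, hx, div_mul_cancel₀ _ hx']
    have h2 := key (φ.prod ψ) hp
    rw [Fintype.card_prod, ← pow_two] at h2
    rw [mul_one, ← h2]
    congr 2
    ext x
    simp [Prod.ext_iff]

open Classical in
theorem card_kernel (ψ : V →ₗ[F] F) :
    Fintype.card F * #{x | ψ x = 0} =
      Fintype.card V * if ψ = 0 then Fintype.card F else 1 := by
  split_ifs with h
  · subst h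
    simp [mul_comm]
  · have h1 := card_common_kernel h ψ
    rw [if_pos (mem_span_singleton_self ψ), pow_two, mul_assoc, mul_comm (Fintype.card V)] at h1
    simp only [and_self] at h1
    rw [mul_one]
    exact Nat.eq_of_mul_eq_mul_left Fintype.card_pos h1

variable {a b : ι → V →ₗ[F] F}

open Classical in
/-- Two families vanishing equally often lie equally often in the span of any functional. -/
theorem card_mem_span_eq (h : ∀ x, #{i | a i x = 0} = #{i | b i x = 0}) (φ : V →ₗ[F] F) :
    #{i | a i ∈ span F {φ}} = #{i | b i ∈ span F {φ}} := by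
  have hswap : ∀ (c : ι → V →ₗ[F] F) (p : V → Prop) [DecidablePred p],
      ∑ x ∈ univ.filter p, #{i | c i x = 0} = ∑ i, #{x | p x ∧ c i x = 0} := by
    intro c p _
    simp only [card_filter, sum_filter, ite_and]
    rw [sum_comm]
    exact sum_congr rfl fun x _ => by split_ifs <;> simp
  have hq : 2 ≤ Fintype.card F := Fintype.one_lt_card
  have hsum : ∀ (c : ι → V →ₗ[F] F) (P : ι → Prop) [DecidablePred P],
      ∑ i, (Fintype.card V * if P i then Fintype.card F else 1) =
        Fintype.card V * (Fintype.card ι + (Fintype.card F - 1) * #{i | P i}) := by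
    intro c P _
    rw [← mul_sum]
    congr 1
    rw [card_filter, mul_sum, ← card_univ (α := ι), card_eq_sum_ones, ← sum_add_distrib]
    exact sum_congr rfl fun i _ => by split_ifs <;> omega
  by_cases hφ : φ = 0
  · subst hφ
    have h1 : ∀ c : ι → V →ₗ[F] F, Fintype.card F * ∑ x, #{i | c i x = 0} =
        Fintype.card V * (Fintype.card ι + (Fintype.card F - 1) * #{i | c i = 0}) := by
      intro c
      have := hswap c (fun _ => True)
      simp only [filter_true, true_and] at this
      rw [this, mul_sum, sum_congr rfl fun i _ => card_kernel (c i), hsum c]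
    have h2 := (h1 a).symm.trans ((congrArg _ (sum_congr rfl fun x _ => h x)).trans (h1 b))
    have h3 := Nat.eq_of_mul_eq_mul_left (Nat.sub_pos_of_lt hq)
      (Nat.add_left_cancel (Nat.eq_of_mul_eq_mul_left Fintype.card_pos h2))
    simpa [span_singleton_eq_bot.2 rfl] using h3
  · have h1 : ∀ c : ι → V →ₗ[F] F, Fintype.card F ^ 2 *
        ∑ x ∈ univ.filter (fun x => φ x = 0), #{i | c i x = 0} =
          Fintype.card V * (Fintype.card ι + (Fintype.card F - 1) * #{i | c i ∈ span F {φ}}) := by
      intro c
      rw [hswap c, mul_sum, sum_congr rfl fun i _ => card_common_kernel hφ (c i), hsum c]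
    have h2 := (h1 a).symm.trans ((congrArg _ (sum_congr rfl fun x _ => h x)).trans (h1 b))
    exact Nat.eq_of_mul_eq_mul_left (Nat.sub_pos_of_lt hq)
      (Nat.add_left_cancel (Nat.eq_of_mul_eq_mul_left Fintype.card_pos h2))

open Classical in
theorem card_line_eq (h : ∀ x, #{i | a i x = 0} = #{i | b i x = 0})
    (S : Submodule F (V →ₗ[F] F)) :
    #{i | span F {a i} = S} = #{i | span F {b i} = S} := by
  by_cases hS : ∃ φ, span F {φ} = S
  swap
  · simp only [not_exists] at hS
    simp [hS]
  obtain ⟨φ, rfl⟩ := hS
  have hz := card_mem_span_eq h 0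
  simp only [span_singleton_eq_bot.2 rfl, Submodule.mem_bot] at hz
  by_cases hφ : φ = 0
  · simpa [hφ, span_singleton_eq_bot] using hz
  have hsplit : ∀ c : ι → V →ₗ[F] F,
      #{i | c i ∈ span F {φ}} = #{i | span F {c i} = span F {φ}} + #{i | c i = 0} := by
    intro c
    rw [← card_union_of_disjoint]
    · congr 1
      ext i
      simp only [mem_filter, mem_univ, true_and, mem_union]
      refine ⟨fun hi => ?_, ?_⟩
      · obtain ⟨t, ht⟩ := mem_span_singleton.1 hi
        by_cases ht0 : t = 0
        · exact Or.inr (by simp [← ht, ht0])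
        · exact Or.inl (by rw [← ht, span_singleton_smul_eq (Ne.isUnit ht0)])
      · rintro (hi | hi)
        · exact hi ▸ mem_span_singleton_self _
        · simp [hi]
    · refine disjoint_filter.2 fun i _ hi h0 => hφ ?_
      rw [h0, span_singleton_eq_bot.2 rfl, eq_comm, span_singleton_eq_bot] at hi
      exact hi
  have := card_mem_span_eq h φ
  rw [hsplit a, hsplit b, hz] at this
  exact Nat.add_right_cancel this

open Classical in
/-- The extension theorem for two families of functionals. -/
theorem exists_perm_smul (h : ∀ x, #{i | a i x = 0} = #{i | b i x = 0}) :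
    ∃ (σ : Equiv.Perm ι) (u : ι → Fˣ), ∀ i, b i = u i • a (σ i) := by
  have he : ∀ S : Submodule F (V →ₗ[F] F),
      Nonempty ({i // span F {b i} = S} ≃ {i // span F {a i} = S}) := fun S => by
    refine ⟨Fintype.equivOfCardEq ?_⟩
    rw [Fintype.card_subtype, Fintype.card_subtype, card_line_eq h S]
  let σ : Equiv.Perm ι := Equiv.ofFiberEquiv fun S => (he S).some
  have hσ : ∀ i, span F {a (σ i)} = span F {b i} := fun i =>
    Equiv.ofFiberEquiv_map (fun S => (he S).some) i
  choose u hu using fun i => span_singleton_eq_span_singleton.1 (hσ i)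
  exact ⟨σ, u, fun i => (hu i).symm⟩

end FA.CodeExtension
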